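import Mathlib
import Fermat.Prelude.Def_GaloisRep_Residual

set_option autoImplicit false

open scoped TensorProduct

namespace Fermat.Agent.H99

section AlgClosed

variable {K : Type*} [Field K] [IsAlgClosed K] {V : Type*} [AddCommGroup V] [Module K V]
  [FiniteDimensional K V] {G : Type*} [Monoid G]

/-- Burnside's theorem over an algebraically closed field (any finite dimension):
an irreducible family of operators closed under multiplication spans `End V`. -/
theorem span_range_eq_top_of_irreducible_algClosed [Nontrivial V]
    (ρ : G →* Module.End K V)
    (hirr : ∀ W : Submodule K V, (∀ g : G, ∀ x ∈ W, ρ g x ∈ W) → W = ⊥ ∨ W = ⊤) :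
    Submodule.span K (Set.range ρ) = ⊤ := by
  classical
  -- the subalgebra generated by the image
  set A : Subalgebra K (Module.End K V) := Algebra.adjoin K (Set.range ρ) with hA
  have hAspan : Subalgebra.toSubmodule A = Submodule.span K (Set.range ρ) := by
    rw [hA, Algebra.adjoin_eq_span]
    congr 1
    have : (Submonoid.closure (Set.range ρ) : Set (Module.End K V)) = Set.range ρ := by
      rw [← MonoidHom.coe_mrange, Submonoid.closure_eq]
    exact this
  -- `V` is a simple `A`-module
  have hsimple : IsSimpleModule A V := by
    rw [isSimpleModule_iff]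
    refine ⟨fun W => ?_⟩
    let W' : Submodule K V :=
      { carrier := W
        add_mem' := W.add_mem
        zero_mem' := W.zero_mem
        smul_mem' := fun c x hx => by
          have : (algebraMap K A c) • x ∈ W := W.smul_mem _ hx
          simpa [Subalgebra.smul_def, Module.algebraMap_end_apply] using this }
    have hW' : ∀ g : G, ∀ x ∈ W', ρ g x ∈ W' := fun g x hx => by
      have : (⟨ρ g, Algebra.subset_adjoin ⟨g, rfl⟩⟩ : A) • x ∈ W := W.smul_mem _ hx
      change ρ g x ∈ W
      simpa [Subalgebra.smul_def] using this
    rcases hirr W' hW' with h | h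
    · left
      ext x
      have := congrArg (fun S : Submodule K V => x ∈ S) h
      simpa [W'] using this
    · right
      ext x
      have := congrArg (fun S : Submodule K V => x ∈ S) h
      simpa [W'] using this
  -- Schur: A-endomorphisms are scalars
  have hschur : Function.Bijective (algebraMap K (Module.End A V)) :=
    IsSimpleModule.algebraMap_end_bijective_of_isAlgClosed K
  -- density
  have htop : A = ⊤ := by
    rw [eq_top_iff]
    intro g _
    -- view g as an End(End_A V)-linear map
    let f : Module.End (Module.End A V) V :=
      { toFun := fun x => g x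
        map_add' := fun x y => map_add g x y
        map_smul' := fun e x => by
          obtain ⟨c, rfl⟩ := hschur.2 e
          simp }
    let b := Module.finBasis K V
    obtain ⟨r, hr⟩ := jacobson_density (R := A) f (Finset.univ.image b)
    have hgr : g = (r : Module.End K V) := by
      apply b.ext
      intro i
      have := hr (b i) (Finset.mem_image_of_mem _ (Finset.mem_univ i))
      simpa [f, Subalgebra.smul_def] using this
    rw [hgr]
    exact r.2
  rw [← hAspan, htop]
  simp

end AlgClosed

/-- Burnside's theorem for an absolutely irreducible residual Galois representation: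
the image of `ρ` spans `End_k V` over `k`. -/
theorem burnside (k : Type) [Field k] (rho : ResidualGaloisRep k)
    (h : rho.IsAbsolutelyIrreducible) :
    Submodule.span k (Set.range rho.ρ) = ⊤ := by
  classical
  -- over the algebraic closure
  have hK : Submodule.span (AlgebraicClosure k)
      (Set.range (rho.baseChange (AlgebraicClosure k)).ρ) = ⊤ := by
    have : Nontrivial (rho.baseChange (AlgebraicClosure k)).V :=
      Module.nontrivial_of_finrank_pos (R := AlgebraicClosure k)
        (by rw [(rho.baseChange (AlgebraicClosure k)).finrank_eq]; norm_num)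
    exact span_range_eq_top_of_irreducible_algClosed _ h
  by_contra hne
  set 𝒜 : Submodule k (Module.End k rho.V) := Submodule.span k (Set.range rho.ρ) with h𝒜
  have hlt : Module.finrank k 𝒜 < Module.finrank k (Module.End k rho.V) :=
    Submodule.finrank_lt hne
  have h4 : Module.finrank k (Module.End k rho.V) = 4 := by
    rw [Module.finrank_linearMap, rho.finrank_eq]
  have h4K : Module.finrank (AlgebraicClosure k)
      (Module.End (AlgebraicClosure k) (AlgebraicClosure k ⊗[k] rho.V)) = 4 := by
    rw [Module.finrank_linearMap, Module.finrank_baseChange, rho.finrank_eq]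
  let Φ : Module.End k rho.V →ₗ[k]
      Module.End (AlgebraicClosure k) (AlgebraicClosure k ⊗[k] rho.V) :=
    LinearMap.baseChangeHom k (AlgebraicClosure k) rho.V rho.V
  let b := Module.finBasis k 𝒜
  have hsub : Set.range (rho.baseChange (AlgebraicClosure k)).ρ ⊆
      (Submodule.span (AlgebraicClosure k)
        (Set.range fun i => Φ (b i : Module.End k rho.V)) : Set _) := by
    rintro _ ⟨σ, rfl⟩
    have hmem : rho.ρ σ ∈ 𝒜 := Submodule.subset_span ⟨σ, rfl⟩
    have hrepr : (rho.ρ σ) = ∑ i, (b.repr ⟨rho.ρ σ, hmem⟩ i) • (b i : Module.End k rho.V) := by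
      have h1 := b.sum_repr ⟨rho.ρ σ, hmem⟩
      have h2 := congrArg (Submodule.subtype 𝒜) h1
      rw [map_sum] at h2
      simp only [map_smul, Submodule.subtype_apply] at h2
      exact h2.symm
    have hΦ : (rho.baseChange (AlgebraicClosure k)).ρ σ = Φ (rho.ρ σ) := rfl
    rw [SetLike.mem_coe, hΦ, hrepr, map_sum]
    refine Submodule.sum_mem _ fun i _ => ?_
    rw [map_smul, ← algebraMap_smul (AlgebraicClosure k)]
    exact Submodule.smul_mem _ _ (Submodule.subset_span ⟨i, rfl⟩)
  have hle : (⊤ : Submodule (AlgebraicClosure k) _) ≤
      Submodule.span (AlgebraicClosure k)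
        (Set.range fun i => Φ (b i : Module.End k rho.V)) := by
    rw [← hK]
    exact Submodule.span_le.mpr hsub
  have hcard := finrank_range_le_card (R := AlgebraicClosure k)
    (fun i => Φ (b i : Module.End k rho.V))
  have htop := Submodule.finrank_mono hle
  rw [finrank_top] at htop
  rw [Set.finrank, Fintype.card_fin] at hcard
  have h5 : (4 : ℕ) ≤ Module.finrank k 𝒜 := by
    rw [← h4K]
    exact htop.trans hcard
  omega

end Fermat.Agent.H99
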