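import Mathlib
import Fermat.Agent.H78.ARTDefs2
import Fermat.Agent.H12.Art1

/-!
# From a limit datum to a universal point (P-DEFRING, subtask H78-ART-4d)
-/

set_option autoImplicit false
set_option linter.unusedSectionVars false
set_option linter.style.haveILetI false

noncomputable section

namespace Fermat.Agent.H99

open IsLocalRing Fermat.Agent.H78

section general

variable {A : Type} [CommRing A] [IsLocalRing A]

lemma maximalIdeal_pow_succ_ne_top (n : ℕ) : maximalIdeal A ^ (n + 1) ≠ ⊤ := by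
  intro h
  have h1 : maximalIdeal A ^ (n + 1) ≤ maximalIdeal A := Ideal.pow_le_self (Nat.succ_ne_zero n)
  rw [h] at h1
  exact (maximalIdeal.isMaximal A).ne_top (top_le_iff.mp h1)

/-- The quotient of a local ring by a positive power of its maximal ideal is local. -/
lemma isLocalRing_quot_pow (n : ℕ) : IsLocalRing (A ⧸ maximalIdeal A ^ (n + 1)) := by
  have : Nontrivial (A ⧸ maximalIdeal A ^ (n + 1)) :=
    Ideal.Quotient.nontrivial_iff.mpr (maximalIdeal_pow_succ_ne_top n)
  exact IsLocalRing.of_surjective' (Ideal.Quotient.mk _) Ideal.Quotient.mk_surjective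

lemma maximalIdeal_quot_pow (n : ℕ) [IsLocalRing (A ⧸ maximalIdeal A ^ (n + 1))] :
    maximalIdeal (A ⧸ maximalIdeal A ^ (n + 1)) =
      (maximalIdeal A).map (Ideal.Quotient.mk (maximalIdeal A ^ (n + 1))) :=
  (map_maximalIdeal_of_surjective _ Ideal.Quotient.mk_surjective).symm

lemma maximalIdeal_quot_pow_pow (n : ℕ) [IsLocalRing (A ⧸ maximalIdeal A ^ (n + 1))] :
    maximalIdeal (A ⧸ maximalIdeal A ^ (n + 1)) ^ (n + 1) = ⊥ := by
  rw [maximalIdeal_quot_pow, ← Ideal.map_pow, Ideal.map_quotient_self]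

lemma isLocalHom_mk_quot_pow (n : ℕ) [IsLocalRing (A ⧸ maximalIdeal A ^ (n + 1))] :
    IsLocalHom (Ideal.Quotient.mk (maximalIdeal A ^ (n + 1))) :=
  IsLocalHom.of_surjective _ Ideal.Quotient.mk_surjective

variable {O : Type} [CommRing O] [IsLocalRing O] [Algebra O A]

/-- `A ⧸ 𝔪 ^ (n+1)` is an Artinian test algebra when `A` is a noetherian local `O`-algebra
with residue field that of `O`. -/
lemma isArtinianTestAlgebra_quot_pow [IsNoetherianRing A]
    (hloc : IsLocalHom (algebraMap O A))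
    (hres : Function.Surjective (residue A ∘ algebraMap O A)) (n : ℕ)
    [IsLocalRing (A ⧸ maximalIdeal A ^ (n + 1))] :
    GaloisRep.IsArtinianTestAlgebra O (A ⧸ maximalIdeal A ^ (n + 1)) := by
  have hmk := isLocalHom_mk_quot_pow (A := A) n
  refine ⟨⟨fun a ha => ?_⟩, ?_, ?_⟩
  · have h1 : IsUnit (Ideal.Quotient.mk (maximalIdeal A ^ (n + 1)) (algebraMap O A a)) := ha
    exact hloc.map_nonunit a (hmk.map_nonunit _ h1)
  · intro y
    obtain ⟨z, rfl⟩ := residue_surjective y
    obtain ⟨a, rfl⟩ := Ideal.Quotient.mk_surjective z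
    obtain ⟨o, ho⟩ := hres (residue A a)
    refine ⟨o, ?_⟩
    simp only [Function.comp_apply] at ho ⊢
    rw [← sub_eq_zero, ← map_sub, residue_eq_zero_iff] at ho ⊢
    have h2 : algebraMap O (A ⧸ maximalIdeal A ^ (n + 1)) o -
        Ideal.Quotient.mk (maximalIdeal A ^ (n + 1)) a =
        Ideal.Quotient.mk (maximalIdeal A ^ (n + 1)) (algebraMap O A o - a) := by
      rw [map_sub]; rfl
    rw [h2, maximalIdeal_quot_pow]
    exact Ideal.mem_map_of_mem _ ho
  · rw [isArtinianRing_iff_isNilpotent_maximalIdeal]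
    exact ⟨n + 1, maximalIdeal_quot_pow_pow n⟩

end general

section key

variable {O : Type} [CommRing O] [IsLocalRing O] {X : Type} {c : X → O} {P : PointPred O X}
  {T : Tower c P} (L : LimitData T)

/-- Two algebra homs out of `L.R` which kill `𝔪 ^ (n+1)` and agree on the universal point
are equal. -/
lemma LimitData.algHom_ext_of_le_ker {B : Type} [CommRing B] [Algebra O B] (n : ℕ)
    (χ₁ χ₂ : L.R →ₐ[O] B)
    (h₁ : maximalIdeal L.R ^ (n + 1) ≤ RingHom.ker χ₁.toRingHom)
    (h₂ : maximalIdeal L.R ^ (n + 1) ≤ RingHom.ker χ₂.toRingHom)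
    (hx : ∀ f, χ₁ (L.x f) = χ₂ (L.x f)) : χ₁ = χ₂ := by
  have hk₁ : RingHom.ker (L.p n).toRingHom ≤ RingHom.ker χ₁.toRingHom := by
    have := L.ker_p n
    exact this ▸ h₁
  have hk₂ : RingHom.ker (L.p n).toRingHom ≤ RingHom.ker χ₂.toRingHom := by
    have := L.ker_p n
    exact this ▸ h₂
  have key : AlgHom.liftOfSurjective (L.p n) (L.p_surjective n) χ₁ hk₁ =
      AlgHom.liftOfSurjective (L.p n) (L.p_surjective n) χ₂ hk₂ := by
    apply Ideal.Quotient.algHom_ext
    apply MvPolynomial.algHom_ext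
    intro f
    have e : (Ideal.Quotient.mkₐ O (T.𝔞 n)) (MvPolynomial.X f) = L.p n (L.x f) := by
      rw [L.p_x n f]; rfl
    simp only [AlgHom.comp_apply]
    rw [e, AlgHom.liftOfSurjective_apply, AlgHom.liftOfSurjective_apply, hx f]
  calc χ₁ = (AlgHom.liftOfSurjective (L.p n) (L.p_surjective n) χ₁ hk₁).comp (L.p n) :=
        (AlgHom.liftOfSurjective_comp _ _ _ _).symm
    _ = (AlgHom.liftOfSurjective (L.p n) (L.p_surjective n) χ₂ hk₂).comp (L.p n) := by rw [key]
    _ = χ₂ := AlgHom.liftOfSurjective_comp _ _ _ _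

/-- Elements of the maximal ideal of `L.R` have nilpotent image under `L.p n`. -/
lemma LimitData.p_pow_eq_zero (n : ℕ) {b : L.R} (hb : b ∈ maximalIdeal L.R) :
    (L.p n b) ^ (n + 1) = 0 := by
  have h1 : b ^ (n + 1) ∈ RingHom.ker (L.p n : L.R →+* MvPolynomial X O ⧸ T.𝔞 n) := by
    rw [L.ker_p n]
    exact Ideal.pow_mem_pow hb (n + 1)
  have h2 := RingHom.mem_ker.mp h1
  rw [map_pow] at h2
  exact h2

end key

section main

variable {O : Type} [CommRing O] [IsLocalRing O] {X : Type} {c : X → O} {P : PointPred O X}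

/-- Evaluation at a point satisfying `P` maps the base ideal into the maximal ideal. -/
lemma aeval_mem_maximalIdeal_of_mem_baseIdeal (hP : IsProRepresentablePred O c P)
    {A : Type} [CommRing A] [IsLocalRing A] [Algebra O A] [IsLocalHom (algebraMap O A)]
    (xA : X → A) (hxA : P xA) {g : MvPolynomial X O} (hg : g ∈ baseIdeal c) :
    MvPolynomial.aeval xA g ∈ maximalIdeal A := by
  rw [← residue_eq_zero_iff]
  have hcomp : (residue A).comp (MvPolynomial.aeval xA : MvPolynomial X O →ₐ[O] A).toRingHom =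
      (ResidueField.map (algebraMap O A)).comp
        (MvPolynomial.aeval (fun f => algebraMap O (ResidueField O) (c f)) :
          MvPolynomial X O →ₐ[O] ResidueField O).toRingHom := by
    apply MvPolynomial.ringHom_ext
    · intro r
      simp only [RingHom.comp_apply, AlgHom.toRingHom_eq_coe, RingHom.coe_coe,
        MvPolynomial.aeval_C]
      rw [show algebraMap O (ResidueField O) r = residue O r from rfl, ResidueField.map_residue]
    · intro f
      simp only [RingHom.comp_apply, AlgHom.toRingHom_eq_coe, RingHom.coe_coe,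
        MvPolynomial.aeval_X]
      rw [show algebraMap O (ResidueField O) (c f) = residue O (c f) from rfl,
        ResidueField.map_residue, ← sub_eq_zero, ← map_sub, residue_eq_zero_iff]
      exact hP.red xA hxA f
  have h2 := congrArg (fun φ : MvPolynomial X O →+* ResidueField A => φ g) hcomp
  simp only [RingHom.comp_apply, AlgHom.toRingHom_eq_coe, RingHom.coe_coe] at h2
  rw [h2]
  have hg' : MvPolynomial.aeval (fun f => algebraMap O (ResidueField O) (c f)) g = 0 := hg
  rw [hg', map_zero]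

/-- `P` holds for the universal point of a limit datum. -/
theorem LimitData.P_x (hP : IsProRepresentablePred O c P) (T : Tower c P) (L : LimitData T) :
    P L.x := by
  rw [hP.lim (A := L.R) inferInstance L.residue_surjective]
  intro B _ _ _ hB q hq hqs
  have := hB.isArtinian
  obtain ⟨n, hn⟩ : ∃ n, maximalIdeal B ^ (n + 1) = ⊥ := by
    obtain ⟨m, hm⟩ := IsArtinianRing.isNilpotent_jacobson_bot (R := B)
    rw [jacobson_eq_maximalIdeal _ bot_ne_top] at hm
    refine ⟨m, ?_⟩
    rw [pow_succ, hm]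
    simp
  have hk : RingHom.ker (L.p n).toRingHom ≤ RingHom.ker q.toRingHom := by
    have hker := L.ker_p n
    intro y hy
    have hy' : y ∈ maximalIdeal L.R ^ (n + 1) := hker ▸ hy
    rw [RingHom.mem_ker]
    have h1 : (maximalIdeal L.R).map q.toRingHom ≤ maximalIdeal B :=
      ((local_hom_TFAE q.toRingHom).out 0 2).mp hq
    have h2 := Ideal.mem_map_of_mem q.toRingHom hy'
    rw [Ideal.map_pow] at h2
    have h3 := Ideal.pow_right_mono h1 (n + 1) h2
    rw [hn] at h3
    exact h3
  obtain ⟨hloc, htest, hPt⟩ := T.adm n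
  obtain ⟨q', hq', hq's⟩ : ∃ q' : (MvPolynomial X O ⧸ T.𝔞 n) →ₐ[O] B,
      (∀ y, q' (L.p n y) = q y) ∧ Function.Surjective q' :=
    ⟨AlgHom.liftOfSurjective (L.p n) (L.p_surjective n) q hk,
      fun y => AlgHom.liftOfSurjective_apply _ _ _ _ y,
      AlgHom.liftOfSurjective_surjective _ _ _ _ hqs⟩
  have hq'loc : IsLocalHom (q' : (MvPolynomial X O ⧸ T.𝔞 n) →+* B) :=
    IsLocalHom.of_surjective (q' : (MvPolynomial X O ⧸ T.𝔞 n) →+* B) hq's
  have h4 := hP.push htest hB q' hq'loc (taut (T.𝔞 n)) hPt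
  have heq : (q : L.R → B) ∘ L.x = q' ∘ taut (T.𝔞 n) := by
    funext f
    simp only [Function.comp_apply]
    rw [← L.p_x n f, hq']
  rw [heq]
  exact h4


end main

section loc

variable {R A : Type} [CommRing R] [IsLocalRing R] [CommRing A] [IsLocalRing A]

/-- Hausdorff criterion in terms of quotient maps. -/
lemma eq_of_forall_mk_eq {I : Ideal A} [IsHausdorff I A] {x y : A}
    (h : ∀ n : ℕ, Ideal.Quotient.mk (I ^ n) x = Ideal.Quotient.mk (I ^ n) y) : x = y := by
  rw [IsHausdorff.eq_iff_smodEq (I := I)]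
  intro n
  rw [SModEq.sub_mem, smul_eq_mul, Ideal.mul_top]
  exact Ideal.Quotient.eq.mp (h n)

/-- A ring hom to a quotient of a local ring which kills a power of the maximal ideal of the
source maps the maximal ideal into the image of the maximal ideal. -/
lemma map_maximalIdeal_le_of_pow_le_ker {J : Ideal A} (χ : R →+* A ⧸ J) (N : ℕ)
    (h : maximalIdeal R ^ N ≤ RingHom.ker χ) :
    (maximalIdeal R).map χ ≤ (maximalIdeal A).map (Ideal.Quotient.mk J) := by
  rw [Ideal.map_le_iff_le_comap]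
  intro b hb
  rw [Ideal.mem_comap]
  have hpow : χ b ^ N = 0 := by
    rw [← map_pow]
    exact RingHom.mem_ker.mp (h (Ideal.pow_mem_pow hb N))
  obtain ⟨a, ha⟩ := Ideal.Quotient.mk_surjective (χ b)
  by_cases hu : IsUnit a
  · have hu' : IsUnit (χ b) := ha ▸ hu.map (Ideal.Quotient.mk J)
    have h0 : IsUnit (0 : A ⧸ J) := hpow ▸ hu'.pow N
    have hsub : Subsingleton (A ⧸ J) := by
      rw [isUnit_zero_iff] at h0
      exact subsingleton_of_zero_eq_one h0
    rw [Subsingleton.elim (χ b) 0]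
    exact Ideal.zero_mem _
  · rw [← ha]
    exact Ideal.mem_map_of_mem _ ((mem_maximalIdeal a).mpr hu)

/-- Powers version. -/
lemma map_maximalIdeal_pow_le_of_pow_le_ker {J : Ideal A} (χ : R →+* A ⧸ J) (N : ℕ)
    (h : maximalIdeal R ^ N ≤ RingHom.ker χ) (k : ℕ) :
    (maximalIdeal R ^ k).map χ ≤ (maximalIdeal A ^ k).map (Ideal.Quotient.mk J) := by
  rw [Ideal.map_pow, Ideal.map_pow]
  exact Ideal.pow_right_mono (map_maximalIdeal_le_of_pow_le_ker χ N h) k

/-- The `factor` map kills the image of the larger ideal. -/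
lemma factor_eq_zero_of_mem_map {I J J' : Ideal A} (hJ : J ≤ J') (hI : I ≤ J')
    {y : A ⧸ J} (hy : y ∈ I.map (Ideal.Quotient.mk J)) :
    Ideal.Quotient.factor hJ y = 0 := by
  have h : I.map (Ideal.Quotient.mk J) ≤ RingHom.ker (Ideal.Quotient.factor hJ) := by
    rw [Ideal.map_le_iff_le_comap]
    intro a ha
    rw [Ideal.mem_comap, RingHom.mem_ker, Ideal.Quotient.factor_mk,
      Ideal.Quotient.eq_zero_iff_mem]
    exact hI ha
  exact RingHom.mem_ker.mp (h hy)

/-- A local hom maps powers of the maximal ideal into powers of the maximal ideal. -/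
lemma map_pow_mem_of_isLocalHom (φ : R →+* A) (hφ : IsLocalHom φ) (k : ℕ) {b : R}
    (hb : b ∈ maximalIdeal R ^ k) : φ b ∈ maximalIdeal A ^ k := by
  have h1 : (maximalIdeal R).map φ ≤ maximalIdeal A :=
    ((local_hom_TFAE φ).out 0 2).mp hφ
  have h2 := Ideal.mem_map_of_mem φ hb
  rw [Ideal.map_pow] at h2
  exact Ideal.pow_right_mono h1 k h2

end loc

section main2

variable {O : Type} [CommRing O] [IsDomain O] [IsDiscreteValuationRing O]
  [IsAdicComplete (maximalIdeal O) O] [Finite (ResidueField O)] {X : Type} {c : X → O}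
  {P : PointPred O X}

/-- The classifying map at level `n`. -/
theorem LimitData.exists_level_hom (hP : IsProRepresentablePred O c P) (T : Tower c P)
    (L : LimitData T) (A : Type) [CommRing A] [IsLocalRing A] [IsNoetherianRing A]
    [IsAdicComplete (maximalIdeal A) A] [Algebra O A] [IsLocalHom (algebraMap O A)]
    (hres : Function.Surjective (IsLocalRing.residue A ∘ algebraMap O A))
    (xA : X → A) (hxA : P xA) (n : ℕ) :
    ∃ φ : L.R →ₐ[O] A ⧸ maximalIdeal A ^ (n + 1),
      (∀ f, φ (L.x f) = Ideal.Quotient.mk (maximalIdeal A ^ (n + 1)) (xA f)) ∧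
      maximalIdeal L.R ^ (n + 1) ≤ RingHom.ker φ.toRingHom := by
  haveI hlocn : IsLocalRing (A ⧸ maximalIdeal A ^ (n + 1)) := isLocalRing_quot_pow n
  have htest : GaloisRep.IsArtinianTestAlgebra O (A ⧸ maximalIdeal A ^ (n + 1)) :=
    isArtinianTestAlgebra_quot_pow inferInstance hres n
  haveI : IsLocalHom (algebraMap O (A ⧸ maximalIdeal A ^ (n + 1))) := htest.isLocalHom
  have hPn : P ((Ideal.Quotient.mkₐ O (maximalIdeal A ^ (n + 1))) ∘ xA) :=
    (hP.lim inferInstance hres xA).mp hxA htest (Ideal.Quotient.mkₐ O _)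
      (isLocalHom_mk_quot_pow n) (Ideal.Quotient.mkₐ_surjective O _)
  have hadm := Fermat.Agent.H12.admissible_ker_aeval hP htest _ hPn
  have hle : baseIdeal c ^ (n + 1) ≤ RingHom.ker (MvPolynomial.aeval
      ((Ideal.Quotient.mkₐ O (maximalIdeal A ^ (n + 1))) ∘ xA) :
        MvPolynomial X O →ₐ[O] A ⧸ maximalIdeal A ^ (n + 1)) := by
    have h1 : baseIdeal c ≤ (maximalIdeal (A ⧸ maximalIdeal A ^ (n + 1))).comap
        (MvPolynomial.aeval ((Ideal.Quotient.mkₐ O (maximalIdeal A ^ (n + 1))) ∘ xA) :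
          MvPolynomial X O →ₐ[O] A ⧸ maximalIdeal A ^ (n + 1)) := by
      intro g hg
      rw [Ideal.mem_comap]
      exact aeval_mem_maximalIdeal_of_mem_baseIdeal hP _ hPn hg
    refine (Ideal.pow_right_mono h1 (n + 1)).trans ?_
    refine (Ideal.le_comap_pow _ (n + 1)).trans ?_
    rw [maximalIdeal_quot_pow_pow n]
    exact le_of_eq rfl
  have h𝔞 := T.least n _ hadm hle
  refine ⟨(Ideal.Quotient.liftₐ (T.𝔞 n) (MvPolynomial.aeval
      ((Ideal.Quotient.mkₐ O (maximalIdeal A ^ (n + 1))) ∘ xA))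
      (fun a ha => RingHom.mem_ker.mp (h𝔞 ha))).comp (L.p n), ?_, ?_⟩
  · intro f
    rw [AlgHom.comp_apply, L.p_x n f]
    simp only [taut]
    erw [Ideal.Quotient.lift_mk]
    simp
  · intro b hb
    rw [RingHom.mem_ker]
    have hb' : b ∈ RingHom.ker (L.p n : L.R →+* MvPolynomial X O ⧸ T.𝔞 n) := by
      rw [L.ker_p n]; exact hb
    have hb0 : L.p n b = 0 := RingHom.mem_ker.mp hb'
    simp [hb0]

/-- Uniqueness of the classifying map. -/
theorem LimitData.hom_ext' (T : Tower c P) (L : LimitData T) (A : Type) [CommRing A]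
    [IsLocalRing A] [IsAdicComplete (maximalIdeal A) A] [Algebra O A]
    (φ ψ : L.R →ₐ[O] A) (hφ : IsLocalHom (φ : L.R →+* A)) (hψ : IsLocalHom (ψ : L.R →+* A))
    (h : φ ∘ L.x = ψ ∘ L.x) : φ = ψ := by
  apply IsAdicComplete.algHom_ext (maximalIdeal A)
  intro n
  have hkill : ∀ (χ : L.R →ₐ[O] A), IsLocalHom (χ : L.R →+* A) →
      maximalIdeal L.R ^ (n + 1) ≤
        RingHom.ker ((Ideal.Quotient.mkₐ O (maximalIdeal A ^ n)).comp χ).toRingHom := by
    intro χ hχ b hb
    rw [RingHom.mem_ker]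
    have h1 : (χ : L.R →+* A) b ∈ maximalIdeal A ^ (n + 1) :=
      map_pow_mem_of_isLocalHom (χ : L.R →+* A) hχ (n + 1) hb
    have h2 : (χ : L.R →+* A) b ∈ maximalIdeal A ^ n :=
      Ideal.pow_le_pow_right (Nat.le_succ n) h1
    exact Ideal.Quotient.eq_zero_iff_mem.mpr h2
  apply LimitData.algHom_ext_of_le_ker L n _ _ (hkill φ hφ) (hkill ψ hψ)
  intro f
  have hf := congrFun h f
  simp only [Function.comp_apply] at hf
  simp only [AlgHom.comp_apply, hf]

/-- Existence of the classifying map. -/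
theorem LimitData.exists_hom' (hP : IsProRepresentablePred O c P) (T : Tower c P)
    (L : LimitData T) (A : Type) [CommRing A] [IsLocalRing A] [IsNoetherianRing A]
    [IsAdicComplete (maximalIdeal A) A] [Algebra O A] [IsLocalHom (algebraMap O A)]
    (hres : Function.Surjective (IsLocalRing.residue A ∘ algebraMap O A))
    (xA : X → A) (hxA : P xA) :
    ∃ φ : L.R →ₐ[O] A, IsLocalHom (φ : L.R →+* A) ∧ φ ∘ L.x = xA := by
  choose φ hφx hφk using LimitData.exists_level_hom hP T L A hres xA hxA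
  have hle : ∀ n : ℕ, maximalIdeal A ^ (n + 1) ≤ maximalIdeal A ^ n :=
    fun n => Ideal.pow_le_pow_right (Nat.le_succ n)
  obtain ⟨g, hg⟩ : ∃ g : (n : ℕ) → L.R →ₐ[O] A ⧸ maximalIdeal A ^ n,
      ∀ n y, g n y = Ideal.Quotient.factor (hle n) (φ n y) :=
    ⟨fun n => (Ideal.Quotient.factorₐ O (hle n)).comp (φ n), fun n y => rfl⟩
  have hgx : ∀ n f, g n (L.x f) = Ideal.Quotient.mk (maximalIdeal A ^ n) (xA f) := by
    intro n f
    rw [hg, hφx, Ideal.Quotient.factor_mk]
  have hgk : ∀ n k, n ≤ k → ∀ b ∈ maximalIdeal L.R ^ k, g n b = 0 := by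
    intro n k hnk b hb
    rw [hg]
    have h1 := map_maximalIdeal_pow_le_of_pow_le_ker (φ n).toRingHom (n + 1) (hφk n) k
      (Ideal.mem_map_of_mem _ hb)
    exact factor_eq_zero_of_mem_map (hle n) (Ideal.pow_le_pow_right hnk) h1
  have compat : ∀ {m n : ℕ} (hmn : m ≤ n),
      (Ideal.Quotient.factorₐ O (Ideal.pow_le_pow_right (I := maximalIdeal A) hmn)).comp (g n)
        = g m := by
    intro m n hmn
    apply LimitData.algHom_ext_of_le_ker L n
    · intro b hb
      rw [RingHom.mem_ker]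
      have h0 : g n b = 0 := hgk n (n + 1) (Nat.le_succ n) b hb
      simp [h0]
    · intro b hb
      rw [RingHom.mem_ker]
      exact hgk m (n + 1) (hmn.trans (Nat.le_succ n)) b hb
    · intro f
      rw [AlgHom.comp_apply, hgx, hgx]
      rfl
  refine ⟨IsAdicComplete.liftAlgHom (maximalIdeal A) g compat, ⟨fun a ha => ?_⟩, ?_⟩
  · by_contra hna
    have ha' : a ∈ maximalIdeal L.R ^ 1 := by
      rw [pow_one]; exact (mem_maximalIdeal a).mpr hna
    have h1 : g 1 a = 0 := hgk 1 1 le_rfl a ha'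
    have h2 : Ideal.Quotient.mk (maximalIdeal A ^ 1)
        (IsAdicComplete.liftAlgHom (maximalIdeal A) g compat a) = 0 := by
      rw [IsAdicComplete.mk_liftAlgHom, h1]
    rw [Ideal.Quotient.eq_zero_iff_mem, pow_one] at h2
    exact ((mem_maximalIdeal _).mp h2) ha
  · funext f
    apply eq_of_forall_mk_eq (I := maximalIdeal A)
    intro n
    rw [Function.comp_apply, IsAdicComplete.mk_liftAlgHom, hgx]

/-- **H78-ART-4d**: a limit datum of a tower gives a universal point. -/
theorem LimitData.nonempty_universalPoint (hP : IsProRepresentablePred O c P) (T : Tower c P)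
    (L : LimitData T) : Nonempty (UniversalPoint O P) :=
  ⟨{ R := L.R
     residue_surjective := L.residue_surjective
     x := L.x
     hx := LimitData.P_x hP T L
     exists_hom := fun A _ _ _ _ _ _ hres xA hxA =>
       LimitData.exists_hom' hP T L A hres xA hxA
     hom_ext := fun A _ _ _ _ _ _ _ φ ψ hφ hψ h =>
       LimitData.hom_ext' T L A φ ψ hφ hψ h }⟩

end main2

end Fermat.Agent.H99
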